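import Fermat.Agent.FranklWilson.Basic
import Mathlib.Analysis.InnerProductSpace.PiL2
import Mathlib.Analysis.SpecificLimits.Normed
import Mathlib.Topology.MetricSpace.Bounded
import Mathlib.Tactic

/-!
# The counterexample of Kahn and Kalai

For `x ∈ {± 1} ^ n` the points `x ⊗ x` have distance squared `2 n² - 2 ⟨x, y⟩²`, so a part of
smaller diameter comes from sign vectors no two of which are orthogonal, and for `n = 4 p` with
balanced vectors the theorem of Frankl and Wilson bounds it.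
-/

set_option autoImplicit false

noncomputable section

open Finset

namespace FA.BorsukProblem

variable {n : ℕ}

/-- The signs of a set. -/
def sgn (A : Finset (Fin n)) (i : Fin n) : ℝ := if i ∈ A then -1 else 1

/-- The tensor square of the sign vector. -/
def point (A : Finset (Fin n)) : EuclideanSpace ℝ (Fin (n * n)) :=
  WithLp.toLp 2 fun r => sgn A (finProdFinEquiv.symm r).1 * sgn A (finProdFinEquiv.symm r).2

theorem sgn_inner (A B : Finset (Fin n)) :
    ∑ i, sgn A i * sgn B i = (n : ℝ) - 2 * #A - 2 * #B + 4 * #(A ∩ B) := by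
  have e : ∀ i, sgn A i * sgn B i = 1 - 2 * (if i ∈ A then 1 else 0) -
      2 * (if i ∈ B then 1 else 0) + 4 * (if i ∈ A ∩ B then 1 else 0) := by
    intro i
    by_cases hA : i ∈ A <;> by_cases hB : i ∈ B <;> simp [sgn, hA, hB] <;> norm_num
  simp only [e, sum_add_distrib, sum_sub_distrib, ← mul_sum, sum_boole, filter_univ_mem, sum_const,
    card_univ, Fintype.card_fin, nsmul_eq_mul, mul_one]

theorem dist_point_sq (A B : Finset (Fin n)) :
    dist (point A) (point B) ^ 2 =
      2 * (n : ℝ) ^ 2 - 2 * (∑ i, sgn A i * sgn B i) ^ 2 := by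
  have hsq : ∀ (C : Finset (Fin n)) (i : Fin n), sgn C i ^ 2 = 1 := fun C i => by
    unfold sgn; split_ifs <;> norm_num
  rw [EuclideanSpace.dist_sq_eq, ← finProdFinEquiv.sum_comp, Fintype.sum_prod_type, pow_two
    (∑ i, sgn A i * sgn B i), sum_mul_sum, mul_sum]
  simp only [mul_sum, point, Equiv.symm_apply_apply, Real.dist_eq, sq_abs]
  rw [eq_sub_iff_add_eq, ← sum_add_distrib]
  refine (sum_congr rfl fun i _ => ?_).trans
    (show ∑ _i : Fin n, ∑ _j : Fin n, (2 : ℝ) = 2 * (n : ℝ) ^ 2 by simp; ring)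
  rw [← sum_add_distrib]
  refine sum_congr rfl fun j _ => ?_
  linear_combination (sgn A j ^ 2) * (hsq A i) + hsq A j + (sgn B j ^ 2) * (hsq B i) + hsq B j

/-- The `2 p`-sets through a point. -/
def family (p : ℕ) (hp : 0 < p) : Finset (Finset (Fin (4 * p))) :=
  {A ∈ univ.powersetCard (2 * p) | {(⟨0, by omega⟩ : Fin (4 * p))} ⊆ A}

theorem card_family {p : ℕ} (hp : 0 < p) :
    #(family p hp) = (4 * p - 1).choose (2 * p - 1) := by
  rw [family, card_filter_powersetCard_subset _ _ _ (subset_univ _) (by simp; omega),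
    card_singleton, card_univ, Fintype.card_fin]

/-- The points. -/
def body (p : ℕ) (hp : 0 < p) : Set (EuclideanSpace ℝ (Fin (4 * p * (4 * p)))) :=
  point '' (family p hp : Set (Finset (Fin (4 * p))))

theorem inter_facts {p : ℕ} (hp : 0 < p) {A B : Finset (Fin (4 * p))} (hA : A ∈ family p hp)
    (hB : B ∈ family p hp) :
    ∑ i, sgn A i * sgn B i = 4 * (#(A ∩ B) : ℝ) - 4 * p ∧ 1 ≤ #(A ∩ B) ∧ #A = 2 * p ∧
      (A ≠ B → #(A ∩ B) < 2 * p) := by
  simp only [family, mem_filter, mem_powersetCard, singleton_subset_iff] at hA hB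
  refine ⟨?_, card_pos.2 ⟨_, mem_inter.2 ⟨hA.2, hB.2⟩⟩, hA.1.2, fun hne => ?_⟩
  · rw [sgn_inner, hA.1.2, hB.1.2]
    push_cast
    ring
  · refine lt_of_le_of_ne ((card_le_card inter_subset_left).trans_eq hA.1.2) fun h => hne ?_
    have e := eq_of_subset_of_card_le inter_subset_left (hA.1.2.trans_le h.ge)
    exact eq_of_subset_of_card_le (inter_eq_left.1 e) (hB.1.2.trans_le hA.1.2.ge)

theorem dist_le {p : ℕ} (hp : 0 < p) {x y : EuclideanSpace ℝ (Fin (4 * p * (4 * p)))}
    (hx : x ∈ body p hp) (hy : y ∈ body p hp) :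
    dist x y ≤ Real.sqrt (2 * ((4 * p : ℕ) : ℝ) ^ 2) := by
  obtain ⟨A, -, rfl⟩ := hx
  obtain ⟨B, -, rfl⟩ := hy
  refine Real.le_sqrt_of_sq_le ?_
  rw [dist_point_sq]
  nlinarith [sq_nonneg (∑ i, sgn A i * sgn B i)]

theorem body_facts {p : ℕ} (hp : p.Prime) :
    (body p hp.pos).Finite ∧ 0 < Metric.diam (body p hp.pos) := by
  have hfin : (body p hp.pos).Finite := (family p hp.pos).finite_toSet.image _
  refine ⟨hfin, ?_⟩
  have h2 := hp.two_le
  obtain ⟨A, hA, B, hB, hne⟩ := one_lt_card.1 (show 1 < #(family p hp.pos) by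
    rw [card_family]
    refine lt_of_lt_of_le ?_ (Nat.choose_le_choose _ (show 2 * p - 1 + 1 ≤ 4 * p - 1 by omega))
    rw [Nat.choose_succ_self_right]
    omega)
  obtain ⟨hs, h1, -, hlt⟩ := inter_facts hp.pos hA hB
  refine lt_of_lt_of_le ?_ (Metric.dist_le_diam_of_mem hfin.isBounded
    (Set.mem_image_of_mem point (mem_coe.2 hA)) (Set.mem_image_of_mem point (mem_coe.2 hB)))
  refine dist_nonneg.lt_of_ne fun h => ?_
  have := dist_point_sq A B
  rw [← h, hs] at this
  have c1 : (1 : ℝ) ≤ #(A ∩ B) := by exact_mod_cast h1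
  have c2 : (#(A ∩ B) : ℝ) + 1 ≤ 2 * p := by exact_mod_cast hlt hne
  push_cast at this
  nlinarith [mul_le_mul_of_nonneg_left c1 (sub_nonneg.2 c2)]

/-- **Parts of smaller diameter are few-pointed.** -/
theorem choose_le_parts {p : ℕ} [hpf : Fact p.Prime]
    (T : Finset (Set (EuclideanSpace ℝ (Fin (4 * p * (4 * p))))))
    (hcover : body p hpf.out.pos ⊆ ⋃ t ∈ T, t)
    (hsmall : ∀ t ∈ T, Metric.diam (t ∩ body p hpf.out.pos) <
      Metric.diam (body p hpf.out.pos)) :
    (4 * p - 1).choose (2 * p - 1) ≤ #T * ∑ i ∈ range p, (4 * p).choose i := by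
  classical
  have hp := hpf.out.pos
  rw [← card_family hp]
  have hsub : family p hp ⊆ T.biUnion fun t => {A ∈ family p hp | point A ∈ t} := fun A hA => by
    obtain ⟨t, ht, hAt⟩ := Set.mem_iUnion₂.1 (hcover ⟨A, mem_coe.2 hA, rfl⟩)
    exact mem_biUnion.2 ⟨t, ht, mem_filter.2 ⟨hA, hAt⟩⟩
  refine (card_le_card hsub).trans (card_biUnion_le_card_mul _ _ _ fun t ht => ?_)
  have h := FA.FranklWilson.frankl_wilson (p := p) {A ∈ family p hp | point A ∈ t}
    ((univ : Finset (ZMod p)).erase 0) (fun A hA hmem => ?_) fun A hA B hB hne => ?_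
  · rwa [card_erase_of_mem (mem_univ _), card_univ, ZMod.card, Fintype.card_fin,
      Nat.sub_add_cancel hpf.out.one_le] at h
  · obtain ⟨-, -, h2, -⟩ := inter_facts hp (mem_filter.1 hA).1 (mem_filter.1 hA).1
    refine (mem_erase.1 hmem).1 ?_
    rw [h2, ZMod.natCast_eq_zero_iff]
    exact dvd_mul_left p 2
  · obtain ⟨hAF, hAt⟩ := mem_filter.1 hA
    obtain ⟨hBF, hBt⟩ := mem_filter.1 hB
    obtain ⟨hs, h1, -, hlt⟩ := inter_facts hp hAF hBF
    refine mem_erase.2 ⟨fun h0 => ?_, mem_univ _⟩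
    rw [ZMod.natCast_eq_zero_iff] at h0
    obtain ⟨j, hj⟩ := h0
    obtain rfl : j = 1 := by
      have hlt' := hlt hne
      rcases j with _ | _ | j
      · omega
      · rfl
      · rw [mul_add, mul_add] at hj
        omega
    rw [hj, mul_one, sub_self] at hs
    have hd : dist (point A) (point B) = Real.sqrt (2 * ((4 * p : ℕ) : ℝ) ^ 2) := by
      rw [← Real.sqrt_sq (dist_nonneg (x := point A) (y := point B)), dist_point_sq, hs]
      norm_num
    have hA' : point A ∈ t ∩ body p hp := ⟨hAt, A, mem_coe.2 hAF, rfl⟩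
    have hB' : point B ∈ t ∩ body p hp := ⟨hBt, B, mem_coe.2 hBF, rfl⟩
    have hfin : (body p hp).Finite := (family p hp).finite_toSet.image _
    refine lt_irrefl _ (((Metric.dist_le_diam_of_mem (hfin.inter_of_right t).isBounded hA'
      hB').trans_lt (hsmall t ht)).trans_le ?_)
    rw [hd]
    exact Metric.diam_le_of_forall_dist_le (Real.sqrt_nonneg _) fun x hx y hy => dist_le hp hx hy

/-- The quotient of the binomial coefficients grows exponentially. -/
theorem growth {p : ℕ} (hp : 2 ≤ p) :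
    3 ^ (p / 2) * ∑ i ∈ range p, (4 * p).choose i ≤
      2 ^ (p / 2) * (2 * p * (4 * p - 1).choose (2 * p - 1)) := by
  have hmono : ∀ i, i < 2 * p → (4 * p).choose i ≤ (4 * p).choose (i + 1) := fun i hi =>
    Nat.choose_le_succ_of_lt_half_left (by omega)
  have hsum : ∑ i ∈ range p, (4 * p).choose i ≤ p * (4 * p).choose p := by
    refine (sum_le_card_nsmul (range p) _ ((4 * p).choose p) fun i hi => ?_).trans_eq (by simp)
    have hi' := (mem_range.1 hi).le
    obtain ⟨d, hd⟩ := Nat.exists_eq_add_of_le hi'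
    have : ∀ d, i + d ≤ 2 * p → (4 * p).choose i ≤ (4 * p).choose (i + d) := fun d => by
      induction d with
      | zero => simp
      | succ d ih => exact fun h => (ih (by omega)).trans (hmono _ (by omega))
    rw [hd]
    exact hd ▸ this d (by omega)
  have hstep : ∀ j, j ≤ p / 2 → 3 ^ j * (4 * p).choose p ≤ 2 ^ j * (4 * p).choose (p + j) := by
    intro j
    induction j with
    | zero => simp
    | succ j ih =>
      intro hj
      have e := Nat.choose_succ_right_eq (4 * p) (p + j)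
      have h1 : 3 * (4 * p).choose (p + j) ≤ 2 * (4 * p).choose (p + (j + 1)) := by
        refine Nat.le_of_mul_le_mul_right ?_ (show 0 < p + j + 1 by omega)
        rw [mul_assoc 2, ← add_assoc, e, mul_comm 3, mul_assoc, mul_left_comm 2]
        exact Nat.mul_le_mul_left _ (by omega)
      rw [pow_succ, pow_succ]
      calc 3 ^ j * 3 * (4 * p).choose p = 3 * (3 ^ j * (4 * p).choose p) := by ring
        _ ≤ 3 * (2 ^ j * (4 * p).choose (p + j)) := Nat.mul_le_mul_left _ (ih (by omega))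
        _ = 2 ^ j * (3 * (4 * p).choose (p + j)) := by ring
        _ ≤ 2 ^ j * (2 * (4 * p).choose (p + (j + 1))) := Nat.mul_le_mul_left _ h1
        _ = 2 ^ j * 2 * (4 * p).choose (p + (j + 1)) := by ring
  have hmid : (4 * p).choose (p + p / 2) ≤ 2 * (4 * p - 1).choose (2 * p - 1) := by
    refine (Nat.choose_le_middle _ _).trans_eq ?_
    rw [show 4 * p / 2 = 2 * p by omega]
    refine Nat.eq_of_mul_eq_mul_right (show 0 < 2 * p by omega) ?_
    have e := Nat.add_one_mul_choose_eq (4 * p - 1) (2 * p - 1)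
    rw [show 4 * p - 1 + 1 = 4 * p by omega, show 2 * p - 1 + 1 = 2 * p by omega] at e
    rw [← e]
    ring
  calc 3 ^ (p / 2) * ∑ i ∈ range p, (4 * p).choose i
      ≤ 3 ^ (p / 2) * (p * (4 * p).choose p) := Nat.mul_le_mul_left _ hsum
    _ = p * (3 ^ (p / 2) * (4 * p).choose p) := by ring
    _ ≤ p * (2 ^ (p / 2) * (4 * p).choose (p + p / 2)) := Nat.mul_le_mul_left _ (hstep _ le_rfl)
    _ ≤ p * (2 ^ (p / 2) * (2 * (4 * p - 1).choose (2 * p - 1))) :=
        Nat.mul_le_mul_left _ (Nat.mul_le_mul_left _ hmid)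
    _ = _ := by ring

/-- Exponentially many parts are needed. -/
theorem parts_lower_bound {p : ℕ} [hpf : Fact p.Prime]
    (T : Finset (Set (EuclideanSpace ℝ (Fin (4 * p * (4 * p))))))
    (hcover : body p hpf.out.pos ⊆ ⋃ t ∈ T, t)
    (hsmall : ∀ t ∈ T, Metric.diam (t ∩ body p hpf.out.pos) <
      Metric.diam (body p hpf.out.pos)) :
    3 ^ (p / 2) ≤ 2 * p * 2 ^ (p / 2) * #T := by
  have hpos : 0 < ∑ i ∈ range p, (4 * p).choose i :=
    sum_pos (fun i hi => Nat.choose_pos (by have := mem_range.1 hi; omega))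
      ⟨0, mem_range.2 hpf.out.pos⟩
  refine Nat.le_of_mul_le_mul_right ((growth hpf.out.two_le).trans ?_) hpos
  calc 2 ^ (p / 2) * (2 * p * (4 * p - 1).choose (2 * p - 1))
      ≤ 2 ^ (p / 2) * (2 * p * (#T * ∑ i ∈ range p, (4 * p).choose i)) :=
        Nat.mul_le_mul_left _ (Nat.mul_le_mul_left _ (choose_le_parts T hcover hsmall))
    _ = _ := by ring

/-- For large primes more parts are needed than any power of the dimension. -/
theorem eventually_many (k : ℕ) :
    ∃ N, ∀ p, N ≤ p → 2 * p * 2 ^ (p / 2) * (4 * p * (4 * p)) ^ k < 3 ^ (p / 2) := by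
  have h := (isLittleO_pow_const_const_pow_of_one_lt (R := ℝ) (2 * k + 1)
    (show (1 : ℝ) < 3 / 2 by norm_num)).def (show (0 : ℝ) < 1 / (7 * 144 ^ k) by positivity)
  obtain ⟨N, hN⟩ := Filter.eventually_atTop.1 h
  refine ⟨2 * N + 2, fun p hp => ?_⟩
  have hq := hN (p / 2) (by omega)
  rw [Real.norm_of_nonneg (by positivity), Real.norm_of_nonneg (by positivity)] at hq
  set q := p / 2 with hqdef
  have hpq : p ≤ 3 * q := by omega
  have hq1 : (1 : ℝ) ≤ q := by exact_mod_cast (show 1 ≤ q by omega)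
  have e1 : 2 * p * 2 ^ q * (4 * p * (4 * p)) ^ k ≤ 6 * q * 2 ^ q * (144 * q ^ 2) ^ k := by
    refine Nat.mul_le_mul (Nat.mul_le_mul_right _ (by omega)) (Nat.pow_le_pow_left ?_ k)
    calc 4 * p * (4 * p) ≤ 4 * (3 * q) * (4 * (3 * q)) := by gcongr
      _ = 144 * q ^ 2 := by ring
  refine lt_of_le_of_lt e1 ?_
  suffices (6 * q * 2 ^ q * (144 * q ^ 2) ^ k : ℝ) < 3 ^ q by exact_mod_cast this
  have e2 : (q : ℝ) ^ (2 * k + 1) * (7 * 144 ^ k) ≤ (3 / 2) ^ q := by
    rw [one_div_mul_eq_div, le_div_iff₀ (by positivity)] at hq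
    exact hq
  have e3 : (3 / 2 : ℝ) ^ q * 2 ^ q = 3 ^ q := by rw [← mul_pow]; norm_num
  rw [← e3, mul_pow, ← pow_mul, show (6 : ℝ) * q * 2 ^ q * (144 ^ k * (q : ℝ) ^ (2 * k)) =
    ((q : ℝ) ^ (2 * k + 1) * (6 * 144 ^ k)) * 2 ^ q by rw [pow_succ]; ring]
  refine mul_lt_mul_of_pos_right (lt_of_lt_of_le ?_ e2) (by positivity)
  exact mul_lt_mul_of_pos_left (mul_lt_mul_of_pos_right (by norm_num) (by positivity))
    (by positivity)

end FA.BorsukProblem

end
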